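/-
LR node [EIG], part 1 (pure sequence algebra, Mathlib only).

If a sequence `a : ℕ → R` with `a 1 = 1` satisfies the Hecke eigen-relations of level `M`
(`a (nℓ) + [ℓ ∣ n] ℓ a (n/ℓ) = lam ℓ * a n` for primes `ℓ ∤ M`, `a (nℓ) = lam ℓ * a n` for primes
`ℓ ∣ M`), then `lam ℓ = a ℓ`, the prime power recursions hold and `a` is multiplicative on coprime
arguments: these are exactly the four clauses of `CuspForm.IsNormalizedEigenform`.
-/
import Mathlib

set_option autoImplicit false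

namespace Fermat.Agent.LR

variable {R : Type*} [CommRing R]

/-- Hecke eigen-relations of level `M` for a sequence `a` with eigenvalues `lam`. -/
structure lreig_Rel (M : ℕ) (a : ℕ → R) (lam : ℕ → R) : Prop where
  one : a 1 = 1
  good : ∀ ℓ : ℕ, ℓ.Prime → ¬ ℓ ∣ M → ∀ n : ℕ,
    a (n * ℓ) + (if ℓ ∣ n then (ℓ : R) * a (n / ℓ) else 0) = lam ℓ * a n
  bad : ∀ ℓ : ℕ, ℓ.Prime → ℓ ∣ M → ∀ n : ℕ, a (n * ℓ) = lam ℓ * a n

variable {M : ℕ} {a lam : ℕ → R}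

theorem lreig_lam_eq (h : lreig_Rel M a lam) {ℓ : ℕ} (hℓ : ℓ.Prime) : lam ℓ = a ℓ := by
  by_cases hM : ℓ ∣ M
  · have := h.bad ℓ hℓ hM 1
    rw [one_mul, h.one, mul_one] at this
    exact this.symm
  · have := h.good ℓ hℓ hM 1
    rw [one_mul, h.one, mul_one, if_neg (by simpa using hℓ.ne_one), add_zero] at this
    exact this.symm

theorem lreig_good' (h : lreig_Rel M a lam) {ℓ : ℕ} (hℓ : ℓ.Prime) (hM : ¬ ℓ ∣ M) (n : ℕ) :
    a (n * ℓ) + (if ℓ ∣ n then (ℓ : R) * a (n / ℓ) else 0) = a ℓ * a n := by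
  rw [← lreig_lam_eq h hℓ]; exact h.good ℓ hℓ hM n

theorem lreig_bad' (h : lreig_Rel M a lam) {ℓ : ℕ} (hℓ : ℓ.Prime) (hM : ℓ ∣ M) (n : ℕ) :
    a (n * ℓ) = a ℓ * a n := by
  rw [← lreig_lam_eq h hℓ]; exact h.bad ℓ hℓ hM n

/-- one step of the good relation at a multiple of `ℓ` -/
theorem lreig_good_step (h : lreig_Rel M a lam) {ℓ : ℕ} (hℓ : ℓ.Prime) (hM : ¬ ℓ ∣ M) (r k : ℕ) :
    a (ℓ ^ (r + 2) * k) = a ℓ * a (ℓ ^ (r + 1) * k) - (ℓ : R) * a (ℓ ^ r * k) := by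
  have h1 := lreig_good' h hℓ hM (ℓ ^ (r + 1) * k)
  have hd : ℓ ∣ ℓ ^ (r + 1) * k := Dvd.dvd.mul_right (dvd_pow_self ℓ (Nat.succ_ne_zero r)) k
  have e1 : ℓ ^ (r + 1) * k * ℓ = ℓ ^ (r + 2) * k := by ring
  have e2 : ℓ ^ (r + 1) * k / ℓ = ℓ ^ r * k := by
    rw [pow_succ, mul_assoc, mul_comm ℓ k, ← mul_assoc]
    exact Nat.mul_div_cancel _ hℓ.pos
  rw [if_pos hd, e1, e2] at h1
  rw [← h1]; ring

theorem lreig_good_first (h : lreig_Rel M a lam) {ℓ : ℕ} (hℓ : ℓ.Prime) (hM : ¬ ℓ ∣ M) {k : ℕ}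
    (hk : ¬ ℓ ∣ k) : a (ℓ * k) = a ℓ * a k := by
  have h1 := lreig_good' h hℓ hM k
  rw [if_neg hk, add_zero, mul_comm k ℓ] at h1
  exact h1

theorem lreig_pow_good (h : lreig_Rel M a lam) {ℓ : ℕ} (hℓ : ℓ.Prime) (hM : ¬ ℓ ∣ M) (r : ℕ) :
    a (ℓ ^ (r + 2)) = a ℓ * a (ℓ ^ (r + 1)) - (ℓ : R) * a (ℓ ^ r) := by
  have := lreig_good_step h hℓ hM r 1
  simpa using this

theorem lreig_pow_bad (h : lreig_Rel M a lam) {ℓ : ℕ} (hℓ : ℓ.Prime) (hM : ℓ ∣ M) (r : ℕ) :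
    a (ℓ ^ (r + 2)) = a ℓ * a (ℓ ^ (r + 1)) := by
  have := lreig_bad' h hℓ hM (ℓ ^ (r + 1))
  rw [← pow_succ] at this
  exact this

theorem lreig_mul_prime_pow (h : lreig_Rel M a lam) {ℓ : ℕ} (hℓ : ℓ.Prime) {k : ℕ}
    (hk : ¬ ℓ ∣ k) (r : ℕ) : a (ℓ ^ r * k) = a (ℓ ^ r) * a k := by
  by_cases hM : ℓ ∣ M
  · induction r with
    | zero => simp [h.one]
    | succ r ih =>
      have e1 : ℓ ^ (r + 1) * k = ℓ ^ r * k * ℓ := by ring
      have e2 : ℓ ^ (r + 1) = ℓ ^ r * ℓ := pow_succ ℓ r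
      rw [e1, lreig_bad' h hℓ hM, ih, e2, lreig_bad' h hℓ hM]
      ring
  · have key : ∀ r : ℕ, a (ℓ ^ r * k) = a (ℓ ^ r) * a k ∧
        a (ℓ ^ (r + 1) * k) = a (ℓ ^ (r + 1)) * a k := by
      intro r
      induction r with
      | zero =>
        refine ⟨by simp [h.one], ?_⟩
        simpa using lreig_good_first h hℓ hM hk
      | succ r ih =>
        refine ⟨ih.2, ?_⟩
        rw [lreig_good_step h hℓ hM r k, ih.1, ih.2, lreig_pow_good h hℓ hM r]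
        ring
    exact (key r).1

/-- multiplicativity on coprime arguments -/
theorem lreig_mul_coprime (h : lreig_Rel M a lam) (m n : ℕ) (hmn : m.Coprime n) :
    a (m * n) = a m * a n := by
  induction m using Nat.strong_induction_on generalizing n with
  | _ m ih =>
    rcases Nat.eq_zero_or_pos m with rfl | hm
    · have : n = 1 := by simpa using hmn
      subst this
      simp [h.one]
    rcases Nat.eq_or_lt_of_le (Nat.succ_le_of_lt hm) with h1 | h1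
    · have : m = 1 := h1.symm
      subst this
      simp [h.one]
    have hm1 : m ≠ 1 := by omega
    set ℓ := m.minFac with hℓdef
    have hℓ : ℓ.Prime := Nat.minFac_prime hm1
    obtain ⟨r, m', hm', hmeq⟩ := Nat.exists_eq_pow_mul_and_not_dvd hm.ne' ℓ hℓ.ne_one
    have hr : r ≠ 0 := by
      rintro rfl
      apply hm'
      have : ℓ ∣ m := Nat.minFac_dvd m
      rw [hmeq] at this
      simpa using this
    have hℓm : ℓ ∣ m := Nat.minFac_dvd m
    have hℓn : ¬ ℓ ∣ n := by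
      intro hn
      have := Nat.dvd_gcd hℓm hn
      rw [Nat.Coprime.gcd_eq_one hmn] at this
      exact hℓ.one_lt.ne' (Nat.dvd_one.mp this)
    have hm'pos : 0 < m' := by
      rcases Nat.eq_zero_or_pos m' with h0 | h0
      · exact absurd (h0 ▸ dvd_zero ℓ) hm'
      · exact h0
    have hm'lt : m' < m := by
      rw [hmeq]
      have : 2 ≤ ℓ ^ r := by
        calc 2 ≤ ℓ := hℓ.two_le
          _ = ℓ ^ 1 := (pow_one ℓ).symm
          _ ≤ ℓ ^ r := Nat.pow_le_pow_right hℓ.pos (Nat.one_le_iff_ne_zero.mpr hr)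
      nlinarith
    have hm'n : m'.Coprime n := by
      apply Nat.Coprime.coprime_dvd_left _ hmn
      rw [hmeq]; exact Dvd.intro_left _ rfl
    have hℓm'n : ¬ ℓ ∣ m' * n := by
      intro hd
      rcases (Nat.Prime.dvd_mul hℓ).mp hd with hd | hd
      · exact hm' hd
      · exact hℓn hd
    calc a (m * n) = a (ℓ ^ r * (m' * n)) := by rw [hmeq, mul_assoc]
      _ = a (ℓ ^ r) * a (m' * n) := lreig_mul_prime_pow h hℓ hℓm'n r
      _ = a (ℓ ^ r) * (a m' * a n) := by rw [ih m' hm'lt n hm'n]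
      _ = a (ℓ ^ r * m') * a n := by rw [lreig_mul_prime_pow h hℓ hm' r]; ring
      _ = a m * a n := by rw [← hmeq]

end Fermat.Agent.LR
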