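/-
LR node [EIG], part 2.

A nonzero subspace `V` of `S₂(Γ₀(M))` stable under all `T_ℓ` (`ℓ ∤ M`) and all `U_ℓ` (`ℓ ∣ M`)
contains a normalised eigenform in the sense of `CuspForm.IsNormalizedEigenform`
(common eigenvector of a commuting family + `a₁ ≠ 0` + the sequence algebra of `Coeff.lean`).
-/
import Fermat.Agent.LR.EIG.Coeff
import Fermat.Agent.S23.RationalSpan

set_option autoImplicit false

open CuspForm CongruenceSubgroup ModularFormClass UpperHalfPlane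
open Fermat.Agent.S49

namespace Fermat.Agent.LR

section Abstract

variable {K V ι : Type*} [Field K] [IsAlgClosed K] [AddCommGroup V] [Module K V]
  [FiniteDimensional K V]

/-- A commuting family of endomorphisms of a finite-dimensional space over an algebraically
closed field has a common eigenvector in every nonzero stable subspace. -/
theorem lreig_exists_common_eigenvector (T : ι → Module.End K V)
    (hc : ∀ i j, Commute (T i) (T j)) (W : Submodule K V) (hW : W ≠ ⊥)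
    (hst : ∀ i, ∀ w ∈ W, T i w ∈ W) :
    ∃ v ∈ W, v ≠ 0 ∧ ∀ i, ∃ μ : K, T i v = μ • v := by
  induction hn : Module.finrank K W using Nat.strong_induction_on generalizing W with
  | _ n ih =>
    by_cases hsc : ∀ i, ∃ μ : K, ∀ w ∈ W, T i w = μ • w
    · obtain ⟨v, hvW, hv0⟩ := Submodule.exists_mem_ne_zero_of_ne_bot hW
      refine ⟨v, hvW, hv0, fun i => ?_⟩
      obtain ⟨μ, hμ⟩ := hsc i
      exact ⟨μ, hμ v hvW⟩
    · obtain ⟨i, hi⟩ := not_forall.mp hsc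
      have : Nontrivial W := Submodule.nontrivial_iff_ne_bot.mpr hW
      obtain ⟨μ, hμ⟩ := Module.End.exists_eigenvalue ((T i).restrict (hst i))
      obtain ⟨w, hw⟩ := hμ.exists_hasEigenvector
      -- the new subspace
      let W' : Submodule K V := W ⊓ Module.End.eigenspace (T i) μ
      have hwW' : (w : V) ∈ W' := by
        refine Submodule.mem_inf.mpr ⟨w.2, ?_⟩
        rw [Module.End.mem_eigenspace_iff]
        have := hw.apply_eq_smul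
        have h2 := congrArg Subtype.val this
        simpa using h2
      have hw0 : (w : V) ≠ 0 := by
        intro h0
        apply hw.2
        exact Subtype.ext h0
      have hW'bot : W' ≠ ⊥ := by
        intro hb
        apply hw0
        have : (w : V) ∈ (⊥ : Submodule K V) := hb ▸ hwW'
        simpa using this
      have hW'le : W' ≤ W := inf_le_left
      have hW'ne : W' ≠ W := by
        intro he
        apply hi
        refine ⟨μ, fun u huW => ?_⟩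
        have : u ∈ W' := he ▸ huW
        exact Module.End.mem_eigenspace_iff.mp (Submodule.mem_inf.mp this).2
      have hlt : Module.finrank K W' < Module.finrank K W :=
        Submodule.finrank_lt_finrank_of_lt (lt_of_le_of_ne hW'le hW'ne)
      have hst' : ∀ j, ∀ u ∈ W', T j u ∈ W' := by
        intro j u hu
        have hu' := Submodule.mem_inf.mp hu
        refine Submodule.mem_inf.mpr ⟨hst j u hu'.1, ?_⟩
        rw [Module.End.mem_eigenspace_iff]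
        have h1 : T i u = μ • u := Module.End.mem_eigenspace_iff.mp hu'.2
        have h2 : T i (T j u) = T j (T i u) := by
          have := (hc i j).eq
          exact congrArg (fun f => f u) this
        rw [h2, h1, map_smul]
      obtain ⟨v, hvW', hv0, hv⟩ := ih _ (hn ▸ hlt) W' hW'bot hst' rfl
      exact ⟨v, hW'le hvW', hv0, hv⟩

end Abstract

noncomputable section

variable {M : ℕ} [NeZero M]

/-- the full family of Hecke operators at prime index: `T_ℓ` for `ℓ ∤ M`, `U_ℓ` for `ℓ ∣ M` -/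
def lreig_op (M : ℕ) [NeZero M] (ℓ : {ℓ : ℕ // ℓ.Prime}) :
    Module.End ℂ (CuspForm (Gamma0 M) 2) :=
  if h : ℓ.1 ∣ M then heckeULin 2 h else heckeTLin 2 ℓ.2 h

theorem lreig_op_of_dvd {ℓ : ℕ} (hℓ : ℓ.Prime) (h : ℓ ∣ M) :
    lreig_op M ⟨ℓ, hℓ⟩ = heckeULin 2 h := by
  simp [lreig_op, h]

theorem lreig_op_of_not_dvd {ℓ : ℕ} (hℓ : ℓ.Prime) (h : ¬ ℓ ∣ M) :
    lreig_op M ⟨ℓ, hℓ⟩ = heckeTLin 2 hℓ h := by
  simp [lreig_op, h]

theorem lreig_op_commute (i j : {ℓ : ℕ // ℓ.Prime}) :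
    Commute (lreig_op M i) (lreig_op M j) := by
  obtain ⟨ℓ, hℓ⟩ := i
  obtain ⟨r, hr⟩ := j
  by_cases h1 : ℓ ∣ M <;> by_cases h2 : r ∣ M
  · rw [lreig_op_of_dvd hℓ h1, lreig_op_of_dvd hr h2]
    exact heckeULin_comm 2 h1 h2
  · rw [lreig_op_of_dvd hℓ h1, lreig_op_of_not_dvd hr h2]
    exact (heckeTLin_heckeULin_comm 2 hr h2 h1).symm
  · rw [lreig_op_of_not_dvd hℓ h1, lreig_op_of_dvd hr h2]
    exact heckeTLin_heckeULin_comm 2 hℓ h1 h2
  · rw [lreig_op_of_not_dvd hℓ h1, lreig_op_of_not_dvd hr h2]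
    exact heckeTLin_comm 2 hℓ h1 hr h2

/-- the `q`-coefficients of a common eigenvector satisfy the (unnormalised) Hecke relations -/
theorem lreig_coeff_rel {v : CuspForm (Gamma0 M) 2} {μ : {ℓ : ℕ // ℓ.Prime} → ℂ}
    (hv : ∀ i, lreig_op M i v = μ i • v) {ℓ : ℕ} (hℓ : ℓ.Prime) (n : ℕ) :
    qCoeff ⇑v (n * ℓ) + (if ¬ ℓ ∣ M ∧ ℓ ∣ n then (ℓ : ℂ) * qCoeff ⇑v (n / ℓ) else 0) =
      μ ⟨ℓ, hℓ⟩ * qCoeff ⇑v n := by
  have h := hv ⟨ℓ, hℓ⟩
  by_cases hM : ℓ ∣ M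
  · rw [lreig_op_of_dvd hℓ hM] at h
    have h2 := congrArg (fun f : CuspForm (Gamma0 M) 2 => qCoeff ⇑f n) h
    simp only [qc_heckeU hℓ hM, qc_smul] at h2
    rw [if_neg (fun hh => hh.1 hM), add_zero]
    exact h2
  · rw [lreig_op_of_not_dvd hℓ hM] at h
    have h2 := congrArg (fun f : CuspForm (Gamma0 M) 2 => qCoeff ⇑f n) h
    simp only [qc_heckeT hℓ hM, qc_smul] at h2
    by_cases hn : ℓ ∣ n
    · rw [if_pos ⟨hM, hn⟩]
      rw [if_pos hn] at h2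
      exact h2
    · rw [if_neg (fun hh => hn hh.2)]
      rw [if_neg hn] at h2
      exact h2

/-- a common eigenvector with `a₁ = 0` vanishes -/
theorem lreig_eq_zero_of_coeff_one {v : CuspForm (Gamma0 M) 2} {μ : {ℓ : ℕ // ℓ.Prime} → ℂ}
    (hv : ∀ i, lreig_op M i v = μ i • v) (h1 : qCoeff ⇑v 1 = 0) : v = 0 := by
  apply qc_ext
  intro n
  rw [qc_zero]
  induction n using Nat.strong_induction_on with
  | _ n ih =>
    rcases Nat.eq_zero_or_pos n with rfl | hn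
    · exact qc_coeff_zero v
    rcases Nat.eq_or_lt_of_le (Nat.succ_le_of_lt hn) with hn1 | hn1
    · rw [← hn1]; exact h1
    have hn1' : n ≠ 1 := by omega
    have hℓ : n.minFac.Prime := Nat.minFac_prime hn1'
    obtain ⟨k, hk⟩ := Nat.minFac_dvd n
    have hkpos : 0 < k := by
      rcases Nat.eq_zero_or_pos k with h0 | h0
      · rw [h0, mul_zero] at hk; omega
      · exact h0
    have hklt : k < n := by
      rw [hk]
      have := hℓ.two_le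
      nlinarith
    have hrel := lreig_coeff_rel hv hℓ k
    rw [ih k hklt, mul_zero] at hrel
    have hdiv : k / n.minFac < n := lt_of_le_of_lt (Nat.div_le_self _ _) hklt
    rw [ih _ hdiv, mul_zero] at hrel
    have e : k * n.minFac = n := by rw [mul_comm]; exact hk.symm
    rw [e] at hrel
    simpa using hrel

/-- **[EIG]**, strong form: a nonzero subspace of `S₂(Γ₀(M))` stable under all `T_ℓ`, `U_ℓ`
contains a normalised eigenform, which is moreover an eigenvector of every `T_ℓ`, `U_ℓ` with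
eigenvalue its `ℓ`-th coefficient. -/
theorem lreig_main_strong (V : Submodule ℂ (CuspForm (Gamma0 M) 2)) (hV : V ≠ ⊥)
    (hT : ∀ (ℓ : ℕ) (hℓ : ℓ.Prime) (hℓM : ¬ ℓ ∣ M), ∀ g ∈ V, heckeTLin 2 hℓ hℓM g ∈ V)
    (hU : ∀ (ℓ : ℕ) (_ : ℓ.Prime) (hℓM : ℓ ∣ M), ∀ g ∈ V, heckeULin 2 hℓM g ∈ V) :
    ∃ g ∈ V, g.IsNormalizedEigenform ∧
      (∀ (ℓ : ℕ) (hℓ : ℓ.Prime) (hℓM : ¬ ℓ ∣ M), heckeTLin 2 hℓ hℓM g = qCoeff ⇑g ℓ • g) ∧
      (∀ (ℓ : ℕ) (_ : ℓ.Prime) (hℓM : ℓ ∣ M), heckeULin 2 hℓM g = qCoeff ⇑g ℓ • g) := by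
  have : FiniteDimensional ℂ (CuspForm (Gamma0 M) 2) :=
    Fermat.Agent.S23.finiteDimensional_cuspForm M 2
  have hst : ∀ i, ∀ w ∈ V, lreig_op M i w ∈ V := by
    rintro ⟨ℓ, hℓ⟩ w hw
    by_cases h : ℓ ∣ M
    · rw [lreig_op_of_dvd hℓ h]; exact hU ℓ hℓ h w hw
    · rw [lreig_op_of_not_dvd hℓ h]; exact hT ℓ hℓ h w hw
  obtain ⟨v, hvV, hv0, hv⟩ :=
    lreig_exists_common_eigenvector (lreig_op M) lreig_op_commute V hV hst
  choose μ hμ using hv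
  have ha1 : qCoeff ⇑v 1 ≠ 0 := fun h => hv0 (lreig_eq_zero_of_coeff_one hμ h)
  set c : ℂ := (qCoeff ⇑v 1)⁻¹ with hc
  -- the relations for the normalised sequence
  have hrel : lreig_Rel M (fun n => qCoeff ⇑(c • v) n)
      (fun ℓ => if h : ℓ.Prime then μ ⟨ℓ, h⟩ else 0) := by
    refine ⟨?_, ?_, ?_⟩
    · show qCoeff ⇑(c • v) 1 = 1
      rw [qc_smul, hc, inv_mul_cancel₀ ha1]
    · intro ℓ hℓ hM n
      have := lreig_coeff_rel hμ hℓ n
      simp only [qc_smul, dif_pos hℓ]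
      by_cases hn : ℓ ∣ n
      · rw [if_pos ⟨hM, hn⟩] at this
        rw [if_pos hn, ← mul_assoc, mul_comm (ℓ : ℂ) c, mul_assoc, ← mul_add, this]
        ring
      · rw [if_neg (fun hh => hn hh.2)] at this
        rw [if_neg hn, add_zero] at *
        rw [this]; ring
    · intro ℓ hℓ hM n
      have := lreig_coeff_rel hμ hℓ n
      rw [if_neg (fun hh => hh.1 hM), add_zero] at this
      simp only [qc_smul, dif_pos hℓ]
      rw [this]; ring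
  have hμa : ∀ (ℓ : ℕ) (hℓ : ℓ.Prime), μ ⟨ℓ, hℓ⟩ = qCoeff ⇑(c • v) ℓ := by
    intro ℓ hℓ
    have := lreig_lam_eq hrel hℓ
    simpa [dif_pos hℓ] using this
  have heig : ∀ i, lreig_op M i (c • v) = μ i • (c • v) := by
    intro i
    rw [map_smul, hμ i, smul_comm]
  refine ⟨c • v, V.smul_mem c hvV, ?_, ?_, ?_⟩
  · exact
      { qCoeff_one := hrel.one
        qCoeff_mul_of_coprime := fun m n hmn => lreig_mul_coprime hrel m n hmn
        qCoeff_prime_pow_of_not_dvd := fun p r hp hpM => lreig_pow_good hrel hp hpM r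
        qCoeff_prime_pow_of_dvd := fun p r hp hpM => lreig_pow_bad hrel hp hpM r }
  · intro ℓ hℓ hℓM
    rw [← lreig_op_of_not_dvd hℓ hℓM, heig, hμa ℓ hℓ]
  · intro ℓ hℓ hℓM
    rw [← lreig_op_of_dvd hℓ hℓM, heig, hμa ℓ hℓ]

/-- **[EIG]**: a nonzero subspace of `S₂(Γ₀(M))` stable under all `T_ℓ`, `U_ℓ` contains a
normalised eigenform. -/
theorem lreig_main (V : Submodule ℂ (CuspForm (Gamma0 M) 2)) (hV : V ≠ ⊥)
    (hT : ∀ (ℓ : ℕ) (hℓ : ℓ.Prime) (hℓM : ¬ ℓ ∣ M), ∀ g ∈ V, heckeTLin 2 hℓ hℓM g ∈ V)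
    (hU : ∀ (ℓ : ℕ) (_ : ℓ.Prime) (hℓM : ℓ ∣ M), ∀ g ∈ V, heckeULin 2 hℓM g ∈ V) :
    ∃ g ∈ V, g.IsNormalizedEigenform := by
  obtain ⟨g, hgV, hg, -, -⟩ := lreig_main_strong V hV hT hU
  exact ⟨g, hgV, hg⟩

/-- the simultaneous eigenspace, inside `W`, of the good Hecke operators `T_ℓ`
(`ℓ ∤ M`, `ℓ ∉ S`) for the system of eigenvalues `θ` -/
def lreig_charSub (W : Submodule ℂ (CuspForm (Gamma0 M) 2)) (S : Set ℕ) (θ : ℕ → ℂ) :
    Submodule ℂ (CuspForm (Gamma0 M) 2) where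
  carrier := {g | g ∈ W ∧ ∀ (ℓ : ℕ) (hℓ : ℓ.Prime) (hℓM : ¬ ℓ ∣ M), ℓ ∉ S →
    heckeTLin 2 hℓ hℓM g = θ ℓ • g}
  add_mem' := by
    rintro a b ⟨ha, ha'⟩ ⟨hb, hb'⟩
    refine ⟨W.add_mem ha hb, fun ℓ hℓ hℓM hS => ?_⟩
    rw [map_add, ha' ℓ hℓ hℓM hS, hb' ℓ hℓ hℓM hS, smul_add]
  zero_mem' := ⟨W.zero_mem, fun ℓ hℓ hℓM _ => by rw [map_zero, smul_zero]⟩
  smul_mem' := by
    rintro c a ⟨ha, ha'⟩
    refine ⟨W.smul_mem c ha, fun ℓ hℓ hℓM hS => ?_⟩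
    rw [map_smul, ha' ℓ hℓ hℓM hS, smul_comm]

omit [NeZero M] in
theorem lreig_mem_charSub {W : Submodule ℂ (CuspForm (Gamma0 M) 2)} {S : Set ℕ} {θ : ℕ → ℂ}
    {g : CuspForm (Gamma0 M) 2} :
    g ∈ lreig_charSub W S θ ↔ g ∈ W ∧ ∀ (ℓ : ℕ) (hℓ : ℓ.Prime) (hℓM : ¬ ℓ ∣ M), ℓ ∉ S →
      heckeTLin 2 hℓ hℓM g = θ ℓ • g := Iff.rfl

/-- **[EIG]** with prescribed good eigenvalues: if `W` is stable under all `T_ℓ`, `U_ℓ` and the
`θ`-eigenspace of the good operators outside `S` in `W` is nonzero, then `W` contains a normalised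
eigenform `g` with `a_ℓ(g) = θ ℓ` for all primes `ℓ ∤ M`, `ℓ ∉ S`. -/
theorem lreig_main_char (W : Submodule ℂ (CuspForm (Gamma0 M) 2)) (S : Set ℕ) (θ : ℕ → ℂ)
    (hne : lreig_charSub W S θ ≠ ⊥)
    (hT : ∀ (ℓ : ℕ) (hℓ : ℓ.Prime) (hℓM : ¬ ℓ ∣ M), ∀ g ∈ W, heckeTLin 2 hℓ hℓM g ∈ W)
    (hU : ∀ (ℓ : ℕ) (_ : ℓ.Prime) (hℓM : ℓ ∣ M), ∀ g ∈ W, heckeULin 2 hℓM g ∈ W) :
    ∃ g ∈ W, g.IsNormalizedEigenform ∧
      (∀ ℓ : ℕ, ℓ.Prime → ¬ ℓ ∣ M → ℓ ∉ S → qCoeff ⇑g ℓ = θ ℓ) ∧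
      (∀ (ℓ : ℕ) (hℓ : ℓ.Prime) (hℓM : ¬ ℓ ∣ M), heckeTLin 2 hℓ hℓM g = qCoeff ⇑g ℓ • g) ∧
      (∀ (ℓ : ℕ) (_ : ℓ.Prime) (hℓM : ℓ ∣ M), heckeULin 2 hℓM g = qCoeff ⇑g ℓ • g) := by
  have hT' : ∀ (ℓ : ℕ) (hℓ : ℓ.Prime) (hℓM : ¬ ℓ ∣ M), ∀ g ∈ lreig_charSub W S θ,
      heckeTLin 2 hℓ hℓM g ∈ lreig_charSub W S θ := by
    rintro ℓ hℓ hℓM g ⟨hgW, hg⟩
    refine ⟨hT ℓ hℓ hℓM g hgW, fun r hr hrM hrS => ?_⟩
    have hcomm := (heckeTLin_comm (N := M) 2 hr hrM hℓ hℓM).eq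
    have := congrArg (fun f => f g) hcomm
    simp only [Module.End.mul_apply] at this
    rw [this, hg r hr hrM hrS, map_smul]
  have hU' : ∀ (ℓ : ℕ) (_ : ℓ.Prime) (hℓM : ℓ ∣ M), ∀ g ∈ lreig_charSub W S θ,
      heckeULin 2 hℓM g ∈ lreig_charSub W S θ := by
    rintro ℓ hℓ hℓM g ⟨hgW, hg⟩
    refine ⟨hU ℓ hℓ hℓM g hgW, fun r hr hrM hrS => ?_⟩
    have hcomm := (heckeTLin_heckeULin_comm (N := M) 2 hr hrM hℓM).eq
    have := congrArg (fun f => f g) hcomm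
    simp only [Module.End.mul_apply] at this
    rw [this, hg r hr hrM hrS, map_smul]
  obtain ⟨g, ⟨hgW, hgθ⟩, hg, hgT, hgU⟩ := lreig_main_strong (lreig_charSub W S θ) hne hT' hU'
  refine ⟨g, hgW, hg, fun ℓ hℓ hℓM hℓS => ?_, hgT, hgU⟩
  have h1 := hgθ ℓ hℓ hℓM hℓS
  rw [hgT ℓ hℓ hℓM] at h1
  have h2 := congrArg (fun f : CuspForm (Gamma0 M) 2 => qCoeff ⇑f 1) h1
  simp only [qc_smul, hg.qCoeff_one, mul_one] at h2
  exact h2

end

end Fermat.Agent.LR
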